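import Fermat.Agent.S48.H441.GenF1
import Fermat.Agent.S48.H882.MeroG
import Fermat.Agent.S48.H332.F1Inst
import Fermat.Agent.S29.H882.Inter
import Fermat.Agent.S48.Kum.Top

/-!
# Tower A1 / A1-KUM: MERO for `(Γ₁(M), F1 M)` and the leaf `inter` (helper441)

* `meroG_F1_441 M : H882.MeroG (Gamma1 M) (F1.F1 M)` — the `q`-expansion at `i∞` of EVERY good
  function for `Γ₁(M)` lies in `ℂ·F1(M)`.  Assembly of
    - helper882's generic `H882.meroG_of_pm` (`Γ' = ±Γ₁(M)`),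
    - `genData_F1_441` (GEN for `(Γ₁(M), F1 M)`, `GenF1.lean`),
    - helper332's degree `H332.f1_finrank_eq : [ℚ̄·F1(M) : ℚ̄(j)] = [SL₂(ℤ) : ±Γ₁(M)]`.
* `dictInter_F1_441 M : Kum.DictInter (Gamma1 M) (F1.F1Bar M)` — **leaf `inter` of `Kum.Leaves`**:
  a good function for `Γ₁(M)` whose `q`-expansion has coefficients in `ℚ̄` has its `q`-expansion
  in `ℚ̄·F1(M)` (MERO + the landed descent `S29.H882.mem_laurentBaseChange_of_coeffMap_mem`).
-/

set_option autoImplicit false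

noncomputable section

open UpperHalfPlane CongruenceSubgroup ModularCurve
open scoped MatrixGroups Manifold

namespace Fermat.Agent.S48.H441

open Fermat.Agent.S24 Fermat.Agent.S48

/-- **MERO for `(Γ₁(M), F1 M)`.** -/
theorem meroG_F1_441 (M : ℕ) [NeZero M] : H882.MeroG (Gamma1 M) (F1.F1 M) := by
  haveI := H332.f1_finiteDimensional M
  haveI : Finite (SL(2, ℤ) ⧸ H332.pmGamma1 M) := Subgroup.finite_quotient_of_finiteIndex
  exact H882.meroG_of_pm (Γ := Gamma1 M) (Γ' := H332.pmGamma1 M)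
    (fun g hg => H332.mem_pmGamma1_iff.mp hg) (H332.T_mem_Gamma1 M) (genData_F1_441 M)
    (F1.jq_mem_F1 M)
    (H332.f1J M) (H332.coe_f1J M) (le_of_eq (H332.f1_finrank_eq M).symm)

/-- **Leaf `inter` of A1-KUM**: DICT-INTER for `(Γ₁(M), ℚ̄·F1(M))`. -/
theorem dictInter_F1_441 (M : ℕ) [NeZero M] : Kum.DictInter (Gamma1 M) (F1.F1Bar M) := by
  intro G s hG hq
  have h1 : H708.qexpFun 1 G ∈ laurentBaseChange ℂ (F1.F1 M) := meroG_F1_441 M G hG
  rw [hq] at h1
  exact Fermat.Agent.S29.H882.mem_laurentBaseChange_of_coeffMap_mem Deg457.iotaC (F1.F1 M) h1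

end Fermat.Agent.S48.H441
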