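import Fermat.Agent.S48.H441.K3Adapter
import Fermat.Agent.S48.H441.MeroF1

/-!
# Tower A1 / A1-KUM, leaf `k3` from DFROM + DTO only (helper441)

GEN (`genData_F1_441`) and MERO (`meroG_F1_441`) for `(Γ₁(M), F1 M)` are proved, so the leaf
`Kum.Leaves.k3` is reduced to the two dictionary inputs of helper882's `H882.pieceK3G`
(owner of both: helper282, generic port of the S29/H282 chain):

* `DFrom1 M ℓ := H882.DFromG (Gamma1 M) (F1.F1 M) ℓ`;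
* `DTo1 M ℓ`  := `H882.DToG (F1.F1 M) ℓ U` for every twisted function `U` of a parabolic
  character of `Γ₁(M)`.

`leafK3_441 : (∀ M ℓ, DFrom1 M ℓ) → (∀ M ℓ, DTo1 M ℓ) → Kum.Leaves.k3`-shape.
-/

set_option autoImplicit false

noncomputable section

open UpperHalfPlane CongruenceSubgroup ModularCurve
open scoped MatrixGroups Manifold

namespace Fermat.Agent.S48.H441

open Fermat.Agent.S24 Fermat.Agent.S48

/-- **DFROM** for `(Γ₁(M), F1 M)` and the exponent `ℓ`. -/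
def DFrom1 (M ℓ : ℕ) : Prop := H882.DFromG (Gamma1 M) (F1.F1 M) ℓ

/-- **DTO** for `(Γ₁(M), F1 M)` and the exponent `ℓ`: for every twisted function `U` of a
parabolic character, `ℓ ∣ ord_w (qexp (U ^ ℓ))` at every place `w` of `ℂ·F1(M)`. -/
def DTo1 (M ℓ : ℕ) : Prop :=
  ∀ {c : Gamma1 M → ZMod ℓ}, Kum.IsParHom (Gamma1 M) c → ∀ {U : ℍ → ℂ},
    Kum.IsTwisted (Gamma1 M) ℓ c U → H882.DToG (F1.F1 M) ℓ U

/-- Leaf `k3` for one level and one modulus, from DFROM and DTO. -/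
theorem pieceK3_F1_441 (M : ℕ) [NeZero M] (ℓ : ℕ) [NeZero ℓ] (hd : DFrom1 M ℓ)
    (hdto : DTo1 M ℓ) : Kum.PieceK3 (Gamma1 M) (F1.F1Bar M) ℓ :=
  pieceK3_Gamma1_441 M ℓ (genData_F1_441 M) (meroG_F1_441 M) hd hdto

/-- **Leaf `k3` of `Kum.Leaves`** (exact shape of the field), from DFROM and DTO. -/
theorem leafK3_441 (hd : ∀ (M : ℕ) [NeZero M] (ℓ : ℕ), ℓ.Prime → DFrom1 M ℓ)
    (hdto : ∀ (M : ℕ) [NeZero M] (ℓ : ℕ), ℓ.Prime → DTo1 M ℓ) :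
    ∀ (M : ℕ) [NeZero M] (ℓ : ℕ), ℓ.Prime → Kum.PieceK3 (Gamma1 M) (F1.F1Bar M) ℓ := by
  intro M _ ℓ hℓ
  haveI : NeZero ℓ := ⟨hℓ.ne_zero⟩
  have h1 : DFrom1 M ℓ := hd M ℓ hℓ
  have h2 : DTo1 M ℓ := hdto M ℓ hℓ
  intro c hc U hU
  exact pieceK3_F1_441 M ℓ h1 h2 hc hU

end Fermat.Agent.S48.H441
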