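import Fermat.Agent.S48.H882.GenField
import Fermat.Agent.S48.H76.Avatar
import Fermat.Agent.S29.H332.Growth

/-!
# Tower A1 / A1-KUM, leaf `k3`, input GEN for `(Γ₁(M), F1 M)` (helper441)

`genData_F1_441 : H882.GenData (Gamma1 M) (F1.F1 M) (divisorExpansions M ∪ F1.divGens M)`:
the function field `F1 M = ℚ(j(q^d) (d ∣ M), P_a (a ≠ 0))` of `X₁(M)` is generated by series which
are `q`-expansions at `i∞` of good functions for `Γ₁(M)`:

* `j(q^d)` : the S24 avatars `τ ↦ j(dτ)` (good for `Γ₀(M) ⊇ Γ₁(M)`, landed `S29.H882.AK_le_goodQ`);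
* `P_a`    : helper76's avatar `H76.pFun M a` (`infExp_pFun`, `pFun_smul_Gamma1`, `pFun_mem_holN`).

Consequences (helper882's generic `GenData` API): `GenData.degStatement` (every element of
`ℂ·F1 M` is integral of degree `≤ [SL₂(ℤ) : Γ₁(M)]` over `ℂ(j)`), `GenData.exists_div_goodQG`.
-/

set_option autoImplicit false

noncomputable section

open UpperHalfPlane CongruenceSubgroup ModularCurve
open scoped MatrixGroups Manifold

namespace Fermat.Agent.S48.H441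

open Fermat.Agent.S24 Fermat.Agent.S24.H997 Fermat.Agent.S24.H624 Fermat.Agent.S24.H648
open Fermat.Agent.S48

/-- A `Γ`-invariant element of the S24 ring `holN M` is good for `Γ`. -/
theorem goodG_of_mem_holN441 {Γ : Subgroup SL(2, ℤ)} {M : ℕ} [NeZero M] {f : ℍ → ℂ}
    (hf : f ∈ holN M) (hinv : ∀ γ ∈ Γ, ∀ τ : ℍ, f (γ • τ) = f τ) : H882.GoodG Γ f := by
  refine ⟨hf.1, hinv, fun g => ?_⟩
  obtain ⟨φ, hφ⟩ := hf.2 g
  exact Fermat.Agent.S29.H332.expGrowth_of_infExp hφ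

/-- The avatar `pFun M a` of `P_a` is a good function for `Γ₁(M)`. -/
theorem goodG_pFun441 (M : ℕ) [NeZero M] (a : ZMod M) : H882.GoodG (Gamma1 M) (H76.pFun M a) :=
  goodG_of_mem_holN441 (H76.pFun_mem_holN M a) (fun γ hγ τ => H76.pFun_smul_Gamma1 M a γ hγ τ)

theorem coeffEmb_divGen441 (M : ℕ) (a : ZMod M) :
    coeffEmb ℂ (F1.divGen M a) = F1.divGenC ℂ M a :=
  F1.coeffMap_divGenC (algebraMap ℚ ℂ) M a

/-- `P_a` (`a ≠ 0`) is the `q`-expansion of a good function for `Γ₁(M)`. -/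
theorem divGen_mem_goodQG441 (M : ℕ) [NeZero M] {a : ZMod M} (ha : a ≠ 0) :
    coeffEmb ℂ (F1.divGen M a) ∈ H882.goodQG (Gamma1 M) := by
  rw [coeffEmb_divGen441]
  exact ⟨H76.pFun M a, goodG_pFun441 M a,
    Fermat.Agent.S29.H332.hasQExp_of_infExp (H76.mdiff_pFun M a) (H76.infExp_pFun M ha)⟩

/-- `j(q^d)` (`d ∣ M`) is the `q`-expansion of a good function for `Γ₁(M)`. -/
theorem divisorExpansion_mem_goodQG441 (M : ℕ) [NeZero M] {s : LaurentSeries ℚ}
    (hs : s ∈ divisorExpansions M) : coeffEmb ℂ s ∈ H882.goodQG (Gamma1 M) := by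
  have h1 : coeffEmb ℂ s ∈ Deg457.AK ℂ M := Algebra.subset_adjoin ⟨s, hs, rfl⟩
  obtain ⟨f, hf, hq⟩ := Fermat.Agent.S29.H882.AK_le_goodQ M h1
  exact ⟨f, H882.GoodG.mono (Γ' := Gamma0 M) hf (Gamma1_in_Gamma0 M), hq⟩

/-- **GEN for `(Γ₁(M), F1 M)`**. -/
theorem genData_F1_441 (M : ℕ) [NeZero M] :
    H882.GenData (Gamma1 M) (F1.F1 M) (divisorExpansions M ∪ F1.divGens M) where
  subset := IntermediateField.subset_adjoin ℚ _
  le_adjoin := le_refl _
  real := by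
    rintro s (hs | ⟨a, ha, rfl⟩)
    · exact divisorExpansion_mem_goodQG441 M hs
    · exact divGen_mem_goodQG441 M ha

end Fermat.Agent.S48.H441
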