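import Fermat.Agent.S48.Kum.M4b1
import Fermat.Agent.S48.H882.K3Fin

/-!
# Tower A1 / A1-KUM, leaf `k3` — ADAPTER (helper441)

`Kum.Leaves.k3` asks for `Kum.PieceK3 (Gamma1 M) (F1Bar M) ℓ` (characters are FUNCTIONS
`c : Γ → ZMod ℓ` with `Kum.IsParHom Γ c`, twisted functions transform by `ζ_ℓ ^ (c γ).val`).
helper882's generic `H882.pieceK3G` is stated for multiplicative characters `χ : Γ →* ℂˣ`.
This file is the dictionary between the two languages: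

* `charOf441 hc : Γ →* ℂˣ`, `γ ↦ ζ_ℓ ^ (c γ).val` (for `hc : Kum.IsParHom Γ c`);
* `isTwistedG_iff441 : H882.IsTwistedG Γ ℓ (charOf441 hc) U ↔ Kum.IsTwisted Γ ℓ c U`;
* `realises_iff441   : H882.RealisesG Γ F₀ u G ↔ Kum.Realises Γ (ℚ̄·F₀) u G` (`Iff.rfl`);
* `pieceK3_of_generic441` : GEN + MERO + DFROM + (DTO for every twisted `U`) for ANY `(Γ, F₀)`
  (`Γ` of finite index, `T ∈ Γ`, `jq ∈ F₀`) ⟹ `Kum.PieceK3 Γ (ℚ̄·F₀) ℓ`;
* `pieceK3_Gamma1_441` : the instance `(Γ₁(M), F1 M)`, i.e. the leaf `k3` from the four inputs.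
-/

set_option autoImplicit false

noncomputable section

open UpperHalfPlane CongruenceSubgroup ModularCurve AlgebraicCurve
open scoped MatrixGroups Manifold

namespace Fermat.Agent.S48.H441

open Fermat.Agent.S24 Fermat.Agent.S29 Fermat.Agent.S48

/-! ### The character `γ ↦ ζ_ℓ ^ c(γ)` -/

section Char

variable {ℓ : ℕ} [NeZero ℓ]

/-- `ζ_ℓ ^ a.val = stdAddChar a`. -/
theorem zetaP_pow_val441 (a : ZMod ℓ) : M4b.zetaP ℓ ^ a.val = ZMod.stdAddChar a := by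
  have h := ZMod.stdAddChar_coe (N := ℓ) (a.val : ℤ)
  rw [Int.cast_natCast, ZMod.natCast_zmod_val] at h
  rw [h, M4b.zetaP, ← Complex.exp_nat_mul]
  congr 1
  push_cast
  ring

variable {Γ : Subgroup SL(2, ℤ)} {c : Γ → ZMod ℓ}

theorem isParHom_map_one441 (hc : Kum.IsParHom Γ c) : c 1 = 0 := by
  have h := hc.map_mul 1 1
  rw [mul_one] at h
  exact left_eq_add.mp h

/-- The multiplicative character `γ ↦ ζ_ℓ ^ (c γ).val = exp(2πi c(γ)/ℓ)`. -/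
def charOf441 (hc : Kum.IsParHom Γ c) : Γ →* ℂˣ :=
  MonoidHom.toHomUnits
    { toFun := fun γ => ZMod.stdAddChar (c γ)
      map_one' := by rw [isParHom_map_one441 hc, AddChar.map_zero_eq_one]
      map_mul' := fun γ γ' => by rw [hc.map_mul, AddChar.map_add_eq_mul] }

theorem charOf441_apply (hc : Kum.IsParHom Γ c) (γ : Γ) :
    ((charOf441 hc γ : ℂˣ) : ℂ) = M4b.zetaP ℓ ^ (c γ).val := by
  rw [zetaP_pow_val441]
  rfl

theorem trace_T441 : ((ModularGroup.T : SL(2, ℤ)) : Matrix (Fin 2) (Fin 2) ℤ).trace = 2 := by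
  simp [ModularGroup.T, Matrix.trace, Fin.sum_univ_two]

theorem charOf441_T (hc : Kum.IsParHom Γ c) (hT : ModularGroup.T ∈ Γ) :
    charOf441 hc ⟨ModularGroup.T, hT⟩ = 1 := by
  apply Units.ext
  rw [charOf441_apply, hc.parabolic ⟨ModularGroup.T, hT⟩ (Or.inl trace_T441)]
  simp

theorem hasCharG_iff441 (hc : Kum.IsParHom Γ c) {U : ℍ → ℂ} :
    H882.HasCharG Γ (charOf441 hc) U ↔ Kum.HasChar Γ ℓ c U := by
  constructor
  · intro h γ τ
    rw [h γ τ, charOf441_apply]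
  · intro h γ τ
    rw [h γ τ, charOf441_apply]

theorem isTwistedG_iff441 (hc : Kum.IsParHom Γ c) {U : ℍ → ℂ} :
    H882.IsTwistedG Γ ℓ (charOf441 hc) U ↔ Kum.IsTwisted Γ ℓ c U :=
  ⟨fun h => ⟨h.mdiff, h.ne_zero, (hasCharG_iff441 hc).mp h.hasChar, h.pow_good⟩,
    fun h => ⟨h.mdiff, h.ne_zero, (hasCharG_iff441 hc).mpr h.hasChar, h.pow_good⟩⟩

end Char

/-! ### Good functions and realisations -/

theorem goodG_iff441 {Γ : Subgroup SL(2, ℤ)} {G : ℍ → ℂ} : H882.GoodG Γ G ↔ Kum.IsGood Γ G :=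
  Iff.rfl

theorem realises_iff441 {Γ : Subgroup SL(2, ℤ)} {F₀ : IntermediateField ℚ (LaurentSeries ℚ)}
    {u : laurentBaseChange Kbar F₀} {G : ℍ → ℂ} :
    H882.RealisesG Γ F₀ u G ↔ Kum.Realises Γ (laurentBaseChange Kbar F₀) u G :=
  Iff.rfl

/-! ### The adapter -/

/-- **K3, generic adapter**: helper882's `pieceK3G` in the language of `Kum/Top.lean`. -/
theorem pieceK3_of_generic441 (Γ : Subgroup SL(2, ℤ)) [Finite (SL(2, ℤ) ⧸ Γ)]
    (hT : ModularGroup.T ∈ Γ) (F₀ : IntermediateField ℚ (LaurentSeries ℚ)) (hj : jq ∈ F₀)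
    {S : Set (LaurentSeries ℚ)} (hgen : H882.GenData Γ F₀ S) (hmero : H882.MeroG Γ F₀)
    (ℓ : ℕ) [NeZero ℓ] (hd : H882.DFromG Γ F₀ ℓ)
    (hdto : ∀ {c : Γ → ZMod ℓ}, Kum.IsParHom Γ c → ∀ {U : ℍ → ℂ}, Kum.IsTwisted Γ ℓ c U →
      H882.DToG F₀ ℓ U) :
    Kum.PieceK3 Γ (laurentBaseChange Kbar F₀) ℓ := by
  intro c hc U hU
  obtain ⟨U', u, hU', hu⟩ := H882.pieceK3G Γ hT F₀ hj hgen hmero ℓ hd (charOf441_T hc hT)
    ((isTwistedG_iff441 hc).mpr hU) (hdto hc hU)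
  exact ⟨U', u, (isTwistedG_iff441 hc).mp hU', realises_iff441.mp hu⟩

/-- **Leaf `k3` of A1-KUM** (`Kum.Leaves.k3`) for one level `M` and one modulus `ℓ`, from the four
inputs GEN, MERO, DFROM, DTO for `(Γ₁(M), F1 M)`. -/
theorem pieceK3_Gamma1_441 (M : ℕ) [NeZero M] (ℓ : ℕ) [NeZero ℓ]
    {S : Set (LaurentSeries ℚ)} (hgen : H882.GenData (Gamma1 M) (F1.F1 M) S)
    (hmero : H882.MeroG (Gamma1 M) (F1.F1 M)) (hd : H882.DFromG (Gamma1 M) (F1.F1 M) ℓ)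
    (hdto : ∀ {c : Gamma1 M → ZMod ℓ}, Kum.IsParHom (Gamma1 M) c → ∀ {U : ℍ → ℂ},
      Kum.IsTwisted (Gamma1 M) ℓ c U → H882.DToG (F1.F1 M) ℓ U) :
    Kum.PieceK3 (Gamma1 M) (F1.F1Bar M) ℓ :=
  pieceK3_of_generic441 (Gamma1 M) (Kum.T_mem_Gamma1 M) (F1.F1 M) (F1.jq_mem_F1 M) hgen hmero ℓ
    hd hdto

end Fermat.Agent.S48.H441
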